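/-
S15 / OUTER, sub-block FIN ⇐ SEL + S17, part (b): the Cayley–Hamilton step (pure Mathlib).

`TT` a commutative ring acting on an abelian group `J`, `Λ ≤ J` a finitely generated subgroup stable under `e ∈ TT`,
`e Λ ⊆ r Λ + Λ_tors`.  Then there is `t ∈ TT`, `t ≡ e ^ n` modulo `r TT`, with `t Λ ⊆ Λ_tors`.  In particular `t ∉ PP` for every
prime ideal `PP ∋ r` with `e ∉ PP`.
-/
import Mathlib

set_option autoImplicit false

namespace Fermat.Agent.S15.Fin

open Polynomial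

/-- Cayley–Hamilton for an endomorphism divisible by `r`. -/
theorem exists_poly_of_dvd {M : Type*} [AddCommGroup M] [Module.Finite ℤ M] (r : ℕ)
    (f : Module.End ℤ M) (h : ∀ x, ∃ y, f x = r • y) :
    ∃ p : ℤ[X], p.Monic ∧ (∀ i < p.natDegree, (r : ℤ) ∣ p.coeff i) ∧ aeval f p = 0 := by
  have hI : LinearMap.range f ≤ (Ideal.span {(r : ℤ)}) • (⊤ : Submodule ℤ M) := by
    rintro _ ⟨x, rfl⟩
    obtain ⟨y, hy⟩ := h x
    rw [hy, ← natCast_zsmul]
    exact Submodule.smul_mem_smul (Ideal.mem_span_singleton_self _) trivial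
  obtain ⟨p, hp, -, hc, h0⟩ :=
    LinearMap.exists_monic_and_natDegree_eq_and_coeff_mem_pow_and_aeval_eq_zero ℤ f _ hI
  refine ⟨p, hp, fun i hi => ?_, h0⟩
  have h1 : p.coeff i ∈ Ideal.span {(r : ℤ)} :=
    Ideal.pow_le_self (Nat.sub_ne_zero_of_lt hi) (hc i)
  exact Ideal.mem_span_singleton.1 h1

/-- polynomials in intertwined endomorphisms are intertwined. -/
theorem aeval_intertwine {M N : Type*} [AddCommGroup M] [AddCommGroup N]
    (g : M →ₗ[ℤ] N) (f : Module.End ℤ M) (f' : Module.End ℤ N) (h : ∀ x, g (f x) = f' (g x))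
    (p : ℤ[X]) (x : M) : g (aeval f p x) = aeval f' p (g x) := by
  have hpow : ∀ (n : ℕ) (x : M), g ((f ^ n) x) = (f' ^ n) (g x) := by
    intro n
    induction n with
    | zero => intro x; simp
    | succ n ih => intro x; rw [pow_succ, pow_succ, Module.End.mul_apply, Module.End.mul_apply, ih, h]
  rw [Polynomial.aeval_endomorphism, Polynomial.aeval_endomorphism, Polynomial.sum_def,
    Polynomial.sum_def, map_sum]
  exact Finset.sum_congr rfl fun n _ => by rw [map_smul, hpow]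

/-- a monic polynomial `≡ X ^ n` mod `r` evaluated at `e ∉ PP` is not in `PP`. -/
theorem aeval_notMem {TT : Type*} [CommRing TT] (PP : Ideal TT) [PP.IsPrime] (r : ℕ)
    (hr : (r : TT) ∈ PP) (e : TT) (he : e ∉ PP) (p : ℤ[X]) (hp : p.Monic)
    (hc : ∀ i < p.natDegree, (r : ℤ) ∣ p.coeff i) : aeval e p ∉ PP := by
  intro ht
  rw [Polynomial.aeval_eq_sum_range, Finset.sum_range_succ, hp.coeff_natDegree, one_smul] at ht
  have h1 : ∑ i ∈ Finset.range p.natDegree, p.coeff i • e ^ i ∈ PP := by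
    refine PP.sum_mem fun i hi => ?_
    obtain ⟨c, hc⟩ := hc i (Finset.mem_range.1 hi)
    rw [hc, zsmul_eq_mul]
    push_cast
    rw [mul_assoc]
    exact PP.mul_mem_right _ hr
  exact he (Ideal.IsPrime.mem_of_pow_mem inferInstance _ ((PP.add_mem_iff_right h1).1 ht))

/-- (b) THE CAYLEY–HAMILTON STEP. -/
theorem exists_notMem_torsion {J : Type*} [AddCommGroup J] {TT : Type*} [CommRing TT] [Module TT J]
    (Λ : AddSubgroup J) (hfg : AddGroup.FG Λ) (PP : Ideal TT) [PP.IsPrime] (r : ℕ)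
    (hr : (r : TT) ∈ PP) (e : TT) (he : e ∉ PP) (hst : ∀ P ∈ Λ, e • P ∈ Λ)
    (h : ∀ P ∈ Λ, ∃ Q ∈ Λ, ∃ T ∈ Λ, IsOfFinAddOrder T ∧ e • P = r • Q + T) :
    ∃ t : TT, t ∉ PP ∧ ∀ P ∈ Λ, IsOfFinAddOrder (t • P) := by
  classical
  have : Module.Finite ℤ Λ := Module.Finite.iff_addGroup_fg.2 hfg
  -- the endomorphism of `Λ`
  let f₀ : Λ →+ Λ :=
    { toFun := fun P => ⟨e • (P : J), hst P P.2⟩
      map_zero' := by ext; simp
      map_add' := fun a b => by ext; simp [smul_add] }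
  let f : Module.End ℤ Λ := f₀.toIntLinearMap
  have hf : ∀ P : Λ, ((f P : Λ) : J) = e • (P : J) := fun _ => rfl
  let Tor : Submodule ℤ Λ := Submodule.torsion ℤ Λ
  have hTor : ∀ P : Λ, P ∈ Tor ↔ IsOfFinAddOrder (P : J) := by
    intro P
    rw [isOfFinAddOrder_iff_zsmul_eq_zero]
    constructor
    · intro hP
      obtain ⟨a, ha⟩ := (Submodule.mem_torsion_iff P).1 hP
      refine ⟨a, nonZeroDivisors.coe_ne_zero a, ?_⟩
      have h1 : ((a : ℤ) • P : Λ) = 0 := ha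
      have h2 := congrArg (Subtype.val) h1
      rwa [AddSubgroup.coe_zsmul, AddSubgroup.coe_zero] at h2
    · rintro ⟨n, hn, h0⟩
      refine (Submodule.mem_torsion_iff P).2 ⟨⟨n, mem_nonZeroDivisors_of_ne_zero hn⟩, ?_⟩
      ext
      simpa using h0
  have hcomap : Tor ≤ Tor.comap f := by
    intro P hP
    rw [Submodule.mem_comap, hTor, hf]
    obtain ⟨n, hn, h0⟩ := isOfFinAddOrder_iff_zsmul_eq_zero.1 ((hTor P).1 hP)
    exact isOfFinAddOrder_iff_zsmul_eq_zero.2 ⟨n, hn, by rw [smul_comm, h0, smul_zero]⟩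
  let fb : Module.End ℤ (Λ ⧸ Tor) := Tor.mapQ Tor f hcomap
  have hfb : ∀ x, ∃ y, fb x = r • y := by
    intro x
    obtain ⟨P, rfl⟩ := Tor.mkQ_surjective x
    obtain ⟨Q, hQ, T, hT, hTf, hPQ⟩ := h P P.2
    refine ⟨Tor.mkQ ⟨Q, hQ⟩, ?_⟩
    have h1 : f P = r • (⟨Q, hQ⟩ : Λ) + ⟨T, hT⟩ := by
      ext
      rw [hf, hPQ]
      simp
    have h2 : Tor.mkQ (⟨T, hT⟩ : Λ) = 0 := by
      rw [Submodule.mkQ_apply, Submodule.Quotient.mk_eq_zero, hTor]
      exact hTf
    change Tor.mapQ Tor f hcomap (Tor.mkQ P) = _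
    rw [Submodule.mkQ_apply, Submodule.mapQ_apply, ← Submodule.mkQ_apply, h1, map_add, h2,
      add_zero, map_nsmul]
  obtain ⟨p, hp, hc, h0⟩ := exists_poly_of_dvd r fb hfb
  refine ⟨aeval e p, aeval_notMem PP r hr e he p hp hc, fun P hP => ?_⟩
  -- the endomorphism of `J`
  let φ : TT →ₐ[ℤ] Module.End ℤ J := (Module.toModuleEnd ℤ J).toIntAlgHom
  have hφ : ∀ (t : TT) (x : J), φ t x = t • x := fun _ _ => rfl
  have h1 : ((aeval f p (⟨P, hP⟩ : Λ) : Λ) : J) = aeval e p • P := by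
    have := aeval_intertwine (Λ.subtype.toIntLinearMap) f (φ e) (fun x => rfl) p ⟨P, hP⟩
    rw [Polynomial.aeval_algHom_apply, hφ] at this
    exact this
  have h2 : aeval f p (⟨P, hP⟩ : Λ) ∈ Tor := by
    have := aeval_intertwine Tor.mkQ f fb (fun x => rfl) p ⟨P, hP⟩
    rw [h0, LinearMap.zero_apply, Submodule.mkQ_apply, Submodule.Quotient.mk_eq_zero] at this
    exact this
  rw [← h1]
  exact (hTor _).1 h2

end Fermat.Agent.S15.Fin
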