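/-
S15 / OUTER, sub-block FIN ⇐ SEL + S17, part (c): the projector onto the `PP`-primary part of a finite module (pure Mathlib).
-/
import Mathlib

set_option autoImplicit false

namespace Fermat.Agent.S15.Fin

/-- `TT` a commutative ring acting on `J`, `M ≤ J` a FINITE submodule, `PP` an ideal.  There are `n ≥ 1` and `ε ∈ PP ^ n` such that
`e := 1 - ε` is idempotent on `M`, and for `x ∈ M`: `e x = x ↔ PP ^ n x = 0 ↔ PP ^ m x = 0` for some `m`. -/
theorem exists_idem {TT : Type*} [CommRing TT] {J : Type*} [AddCommGroup J] [Module TT J]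
    (M : Submodule TT J) [Finite M] (PP : Ideal TT) :
    ∃ (n : ℕ) (ε : TT), 0 < n ∧ ε ∈ PP ^ n ∧ (∀ x ∈ M, ε • ε • x = ε • x) ∧
      (∀ x ∈ M, ε • x = 0 ↔ ∀ t ∈ PP ^ n, t • x = 0) ∧
      (∀ x ∈ M, ∀ m : ℕ, (∀ t ∈ PP ^ m, t • x = 0) → ε • x = 0) := by
  classical
  let φ : TT →+* Module.End ℤ M := Module.toModuleEnd ℤ M
  have hφ : ∀ (t : TT) (x : M), φ t x = t • x := fun _ _ => rfl
  have : Finite (Module.End ℤ M) := Finite.of_injective (fun f : Module.End ℤ M => (f : M → M))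
    DFunLike.coe_injective
  have : Finite (TT ⧸ RingHom.ker φ) := Finite.of_injective _ (RingHom.kerLift_injective φ)
  let mk : TT →+* TT ⧸ RingHom.ker φ := Ideal.Quotient.mk _
  have hmk : Function.Surjective mk := Ideal.Quotient.mk_surjective
  -- `t • x` only depends on `mk t`
  have hdep : ∀ (t t' : TT), mk t = mk t' → ∀ x ∈ M, t • x = t' • x := by
    intro t t' h x hx
    have h1 : t - t' ∈ RingHom.ker φ := (Ideal.Quotient.eq).1 h
    have h2 : φ t = φ t' := by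
      rw [RingHom.mem_ker, map_sub, sub_eq_zero] at h1
      exact h1
    have h3 := congrArg Subtype.val (LinearMap.congr_fun h2 ⟨x, hx⟩)
    exact h3
  let Pb : Ideal (TT ⧸ RingHom.ker φ) := PP.map mk
  -- the powers of `Pb` stabilise
  obtain ⟨n₀, hn₀⟩ : ∃ n₀ : ℕ, ∀ m, n₀ ≤ m → Pb ^ n₀ = Pb ^ m := by
    have := IsArtinian.monotone_stabilizes (R := TT ⧸ RingHom.ker φ) (M := TT ⧸ RingHom.ker φ)
      ⟨fun n => OrderDual.toDual (Pb ^ n), fun a b hab => Ideal.pow_le_pow_right hab⟩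
    obtain ⟨n₀, h⟩ := this
    exact ⟨n₀, fun m hm => h m hm⟩
  have hst : ∀ m, n₀ + 1 ≤ m → Pb ^ (n₀ + 1) = Pb ^ m := fun m hm => by
    rw [← hn₀ (n₀ + 1) (by omega), ← hn₀ m (by omega)]
  have hidem : IsIdempotentElem (Pb ^ (n₀ + 1)) := by
    unfold IsIdempotentElem
    rw [← pow_add]
    exact (hst _ (by omega)).symm
  obtain ⟨εb, hεb, hspan⟩ :=
    (Ideal.isIdempotentElem_iff_of_fg _ (IsNoetherian.noetherian _)).1 hidem
  have hmem : εb ∈ (PP ^ (n₀ + 1)).map mk := by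
    rw [Ideal.map_pow]
    change εb ∈ Pb ^ (n₀ + 1)
    rw [hspan]
    exact Ideal.mem_span_singleton_self _
  obtain ⟨ε, hε, hεmk⟩ := (Ideal.mem_map_iff_of_surjective mk hmk).1 hmem
  -- elements of `PP ^ m`, `m ≥ n₀ + 1`, are multiples of `ε` on `M`, and conversely
  have hmul : ∀ t ∈ PP ^ (n₀ + 1), ∃ s : TT, ∀ x ∈ M, t • x = s • ε • x := by
    intro t ht
    have h1 : mk t ∈ Pb ^ (n₀ + 1) := by
      change mk t ∈ (PP.map mk) ^ (n₀ + 1)
      rw [← Ideal.map_pow]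
      exact Ideal.mem_map_of_mem _ ht
    rw [hspan] at h1
    obtain ⟨sb, hsb⟩ := Ideal.mem_span_singleton'.1 h1
    obtain ⟨s, rfl⟩ := hmk sb
    refine ⟨s, fun x hx => ?_⟩
    rw [← mul_smul]
    exact hdep _ _ (by rw [map_mul, hεmk, hsb]) x hx
  refine ⟨n₀ + 1, ε, Nat.succ_pos _, hε, fun x hx => ?_, fun x hx => ⟨fun h t ht => ?_, fun h => h ε hε⟩,
    fun x hx m h => ?_⟩
  · rw [← mul_smul]
    exact hdep _ _ (by rw [map_mul, hεmk]; exact hεb) x hx
  · obtain ⟨s, hs⟩ := hmul t ht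
    rw [hs x hx, h, smul_zero]
  · -- `ε ≡ t'` with `t' ∈ PP ^ (max m (n₀ + 1))`
    have h1 : εb ∈ (PP ^ (m + (n₀ + 1))).map mk := by
      rw [Ideal.map_pow]
      change εb ∈ Pb ^ (m + (n₀ + 1))
      rw [← hst _ (by omega), hspan]
      exact Ideal.mem_span_singleton_self _
    obtain ⟨t', ht', ht'mk⟩ := (Ideal.mem_map_iff_of_surjective mk hmk).1 h1
    rw [hdep ε t' (by rw [hεmk, ht'mk]) x hx]
    exact h t' (Ideal.pow_le_pow_right (Nat.le_add_right _ _) ht')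

end Fermat.Agent.S15.Fin
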