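/-
S15 / OUTER, sub-block FIN ⇐ SEL + S17, part (a): the Kummer map.

`J` an abelian group with an action of `GQ`, `r ^ k`-divisible; `e : J →+ J` commuting with `GQ`; `V = e J[r ^ k]`, given as an injective
equivariant `ι : V →+ J`.  `KK D n'` = the group of the Kummer cocycles `σ ↦ e (σ R - R)`, `r ^ k R = n' P`, `P ∈ J ^ GQ`
(the factor `n'` because the local condition at `N` only holds for the multiples of `n'`).
If `n' = r ^ γ u` and `[KK : Bd] r ^ γ < r ^ k` then `u e (J ^ GQ) ⊆ r (J ^ GQ) + torsion`.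
-/
import Fermat.Agent.S15.Sel.Cor

set_option autoImplicit false
set_option linter.unusedSectionVars false

namespace Fermat.Agent.S15.Fin

open Fermat.Agent.S15.Sel

/-- the data of the Kummer map. -/
structure KumDat (r k : ℕ) (J V : Type*) [AddCommGroup J] [DistribMulAction GQ J] [AddCommGroup V]
    [DistribMulAction GQ V] where
  /-- the projector -/
  e : J →+ J
  e_comm : ∀ (σ : GQ) (x : J), e (σ • x) = σ • e x
  /-- the inclusion of `V = e J[r ^ k]` -/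
  ι : V →+ J
  ι_inj : Function.Injective ι
  ι_equiv : ∀ (σ : GQ) (v : V), ι (σ • v) = σ • ι v
  ι_tors : ∀ v : V, (r ^ k) • ι v = 0
  ι_fix : ∀ v : V, e (ι v) = ι v
  ι_surj : ∀ x : J, (r ^ k) • x = 0 → ∃ v : V, ι v = e x
  div : ∀ P : J, ∃ R : J, (r ^ k) • R = P

variable {r k : ℕ} {J V : Type*} [AddCommGroup J] [DistribMulAction GQ J] [AddCommGroup V]
  [DistribMulAction GQ V]

/-- `c` is a Kummer cocycle of `n' P` (through the `r ^ k`-th root `R`). -/
def IsKum (D : KumDat r k J V) (n' : ℕ) (P R : J) (c : GQ → V) : Prop :=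
  (∀ σ : GQ, σ • P = P) ∧ (r ^ k) • R = n' • P ∧ ∀ σ : GQ, D.ι (c σ) = D.e (σ • R - R)

/-- the group of Kummer cocycles of the points `n' P`, `P` rational. -/
def KK (D : KumDat r k J V) (n' : ℕ) : AddSubgroup (GQ → V) where
  carrier := {c | ∃ P R : J, IsKum D n' P R c}
  zero_mem' := ⟨0, 0, fun σ => smul_zero σ, by rw [smul_zero, smul_zero], fun σ => by simp⟩
  add_mem' := by
    rintro c c' ⟨P, R, h1, h2, h3⟩ ⟨P', R', h1', h2', h3'⟩
    refine ⟨P + P', R + R', fun σ => by rw [smul_add, h1, h1'], by rw [smul_add, h2, h2', smul_add],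
      fun σ => ?_⟩
    rw [Pi.add_apply, map_add, h3, h3', ← map_add, smul_add]
    congr 1
    abel
  neg_mem' := by
    rintro c ⟨P, R, h1, h2, h3⟩
    refine ⟨-P, -R, fun σ => by rw [smul_neg, h1], by rw [smul_neg, h2, smul_neg], fun σ => ?_⟩
    rw [Pi.neg_apply, map_neg, h3, ← map_neg, smul_neg]
    congr 1
    abel

theorem mem_KK {D : KumDat r k J V} {n' : ℕ} {c : GQ → V} :
    c ∈ KK D n' ↔ ∃ P R : J, IsKum D n' P R c := Iff.rfl

/-- every rational point has a Kummer cocycle. -/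
theorem exists_isKum (D : KumDat r k J V) (n' : ℕ) (P : J) (hP : ∀ σ : GQ, σ • P = P) :
    ∃ (R : J) (c : GQ → V), IsKum D n' P R c := by
  obtain ⟨R, hR⟩ := D.div (n' • P)
  have h : ∀ σ : GQ, ∃ v : V, D.ι v = D.e (σ • R - R) := fun σ =>
    D.ι_surj _ (by rw [smul_sub, smul_comm, hR, smul_comm, hP, sub_self])
  choose c hc using h
  exact ⟨R, c, hP, hR, hc⟩

theorem Bd_le_KK (D : KumDat r k J V) (n' : ℕ) : Bd V ≤ KK D n' := by
  rintro _ ⟨x, rfl⟩
  refine ⟨0, D.ι x, fun σ => smul_zero σ, by rw [D.ι_tors x, smul_zero], fun σ => ?_⟩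
  rw [dd_apply, map_sub, map_sub, D.ι_equiv, D.e_comm, D.ι_fix]

/-- Kummer cocycles are cocycles. -/
theorem isCoc_of_isKum {D : KumDat r k J V} {n' : ℕ} {P R : J} {c : GQ → V}
    (h : IsKum D n' P R c) : IsCoc c := by
  intro σ τ
  apply D.ι_inj
  rw [map_add, D.ι_equiv, h.2.2, h.2.2, h.2.2, ← D.e_comm, ← map_add, smul_sub, mul_smul]
  congr 1
  abel

/-- functions to `V` are killed by `r ^ k`. -/
theorem pow_smul_eq_zero (D : KumDat r k J V) (c : GQ → V) : (r ^ k) • c = 0 := by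
  funext σ
  apply D.ι_inj
  rw [Pi.smul_apply, map_nsmul, D.ι_tors, Pi.zero_apply, map_zero]

/-- (a) THE KUMMER STEP. -/
theorem exists_eq_smul_add (hr : r.Prime) (D : KumDat r k J V) (γ u : ℕ)
    (h0 : (Bd V).relIndex (KK D (r ^ γ * u)) ≠ 0)
    (hlt : (Bd V).relIndex (KK D (r ^ γ * u)) * r ^ γ < r ^ k) (P : J) (hP : ∀ σ : GQ, σ • P = P) :
    ∃ Q : J, (∀ σ : GQ, σ • Q = Q) ∧ ∃ T : J, (∀ σ : GQ, σ • T = T) ∧ IsOfFinAddOrder T ∧
      u • D.e P = r • Q + T := by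
  obtain ⟨R, c, -, hR, hc⟩ := exists_isKum D (r ^ γ * u) P hP
  have hcK : c ∈ KK D (r ^ γ * u) := ⟨P, R, hP, hR, hc⟩
  set m := (Bd V).relIndex (KK D (r ^ γ * u)) with hm
  -- `r ^ j • c` is a coboundary for some `j` with `r ^ j ≤ m`
  have h1 : m • c ∈ Bd V := (Bd V).nsmul_relIndex_mem hcK
  have h2 : (r ^ k) • c ∈ Bd V := by
    rw [pow_smul_eq_zero D c]
    exact (Bd V).zero_mem
  have h3 : (Nat.gcd m (r ^ k)) • c ∈ Bd V := by
    rw [← natCast_zsmul, Nat.gcd_eq_gcd_ab, add_smul, mul_comm, mul_smul, mul_comm, mul_smul,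
      natCast_zsmul, natCast_zsmul]
    exact (Bd V).add_mem ((Bd V).zsmul_mem h1 _) ((Bd V).zsmul_mem h2 _)
  obtain ⟨j, -, hgcd⟩ := (Nat.dvd_prime_pow hr).1 (Nat.gcd_dvd_right m (r ^ k))
  rw [hgcd] at h3
  have hjk : j + γ < k := by
    have h4 : r ^ j ≤ m := by
      rw [← hgcd]
      exact Nat.le_of_dvd (Nat.pos_of_ne_zero h0) (Nat.gcd_dvd_left _ _)
    have h5 : r ^ (j + γ) < r ^ k := by
      rw [pow_add]
      exact lt_of_le_of_lt (Nat.mul_le_mul_right _ h4) hlt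
    exact (Nat.pow_lt_pow_iff_right hr.one_lt).1 h5
  obtain ⟨d, rfl⟩ : ∃ d, k = j + γ + (d + 1) := ⟨k - (j + γ) - 1, by omega⟩
  obtain ⟨x, hx⟩ := h3
  -- the rational point `Q'`
  have hQ : ∀ σ : GQ, σ • ((r ^ j) • D.e R - D.ι x) = (r ^ j) • D.e R - D.ι x := by
    intro σ
    have h5 := congrArg D.ι (congrFun hx σ)
    rw [Pi.smul_apply, map_nsmul, hc, dd_apply, map_sub D.e, map_sub D.ι, D.ι_equiv, D.e_comm,
      smul_sub] at h5
    rw [smul_sub, smul_comm σ, ← sub_eq_zero]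
    have h6 : (r ^ j) • σ • D.e R - σ • D.ι x - ((r ^ j) • D.e R - D.ι x) =
        ((r ^ j) • σ • D.e R - (r ^ j) • D.e R) - (σ • D.ι x - D.ι x) := by abel
    rw [h6, h5, sub_self]
  have heP : ∀ σ : GQ, σ • D.e P = D.e P := fun σ => by rw [← D.e_comm, hP]
  refine ⟨(r ^ d) • ((r ^ j) • D.e R - D.ι x), fun σ => by rw [smul_comm σ, hQ],
    u • D.e P - r • (r ^ d) • ((r ^ j) • D.e R - D.ι x), fun σ => ?_, ?_, by abel⟩
  · rw [smul_sub, smul_comm σ, heP, smul_comm σ, smul_comm σ, hQ]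
  · rw [isOfFinAddOrder_iff_nsmul_eq_zero]
    refine ⟨r ^ (j + γ), pow_pos hr.pos _, ?_⟩
    have h7 : (r ^ (j + γ)) • r • (r ^ d) • D.ι x = 0 := by
      rw [← mul_smul, ← mul_smul, ← D.ι_tors x]
      congr 1
      ring
    have h8 : (r ^ (j + γ)) • r • (r ^ d) • (r ^ j) • D.e R = (r ^ (j + γ)) • u • D.e P := by
      have h9 : (r ^ (j + γ + (d + 1))) • D.e R = (r ^ γ * u) • D.e P := by
        rw [← map_nsmul, hR, map_nsmul]
      have h10 : (r ^ (j + γ)) • r • (r ^ d) • (r ^ j) • D.e R =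
          (r ^ j) • (r ^ (j + γ + (d + 1))) • D.e R := by
        rw [← mul_smul, ← mul_smul, ← mul_smul, ← mul_smul]
        congr 1
        ring
      rw [h10, h9, ← mul_smul, ← mul_smul]
      congr 1
      ring
    rw [smul_sub, smul_sub (r ^ d), smul_sub r, smul_sub (r ^ (j + γ)) (r • _), h7, h8, sub_zero,
      sub_self]

end Fermat.Agent.S15.Fin
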