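/-
S15 / OUTER, sub-block FIN ⇐ SEL + S17: the assembly.

FIN : there is `t ∈ TT \ PP` with `t • J(ℚ)` torsion.
* `fin_of_relIndex` : from a bound for the index of the coboundaries in the Kummer cocycles (for ONE `k`);
* `fin_of_sel` : from helper66's `Sel.card_image_le` (Mazur's inequality).
-/
import Fermat.Agent.S15.Fin.CH
import Fermat.Agent.S15.Fin.Kum
import Fermat.Agent.S15.Fin.Idem
import Fermat.Agent.S15.Sel.Main

set_option autoImplicit false
set_option linter.unusedSectionVars false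

namespace Fermat.Agent.S15.Fin

open Fermat.Agent.S15.Sel

variable {r k : ℕ} {J V : Type*} [AddCommGroup J] [DistribMulAction GQ J] [AddCommGroup V]
  [DistribMulAction GQ V]

/-- FIN from a bound of `[KK : Bd]` for one `k`.  `n' = r ^ γ * u`, `r ∤ u`. -/
theorem fin_of_relIndex (hr : r.Prime) {TT : Type*} [CommRing TT] [Module TT J]
    (hcomm : ∀ (t : TT) (σ : GQ) (x : J), t • σ • x = σ • t • x)
    (PP : Ideal TT) [PP.IsPrime] (hrPP : (r : TT) ∈ PP)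
    (hfg : AddGroup.FG (FixedPoints.addSubgroup GQ J))
    (e : TT) (he : e ∉ PP) (D : KumDat r k J V) (hDe : ∀ x : J, D.e x = e • x)
    (γ u : ℕ) (hu : ¬ r ∣ u)
    (h0 : (Bd V).relIndex (KK D (r ^ γ * u)) ≠ 0)
    (hlt : (Bd V).relIndex (KK D (r ^ γ * u)) * r ^ γ < r ^ k) :
    ∃ t : TT, t ∉ PP ∧ ∀ P : J, (∀ σ : GQ, σ • P = P) → IsOfFinAddOrder (t • P) := by
  have huPP : (u : TT) ∉ PP := by
    intro h
    have hcop : Nat.Coprime r u := (Nat.Prime.coprime_iff_not_dvd hr).2 hu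
    have h1 : ((r : ℤ) * Nat.gcdA r u + (u : ℤ) * Nat.gcdB r u : ℤ) = 1 := by
      rw [← Nat.gcd_eq_gcd_ab, hcop.gcd_eq_one, Nat.cast_one]
    have h2 : ((r : TT) * ((Nat.gcdA r u : ℤ) : TT) + (u : TT) * ((Nat.gcdB r u : ℤ) : TT)) = 1 := by
      have := congrArg (Int.cast : ℤ → TT) h1
      push_cast at this
      exact this
    apply (Ideal.ne_top_iff_one PP).1 (Ideal.IsPrime.ne_top inferInstance)
    rw [← h2]
    exact PP.add_mem (PP.mul_mem_right _ hrPP) (PP.mul_mem_right _ h)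
  have he' : (u : TT) * e ∉ PP := fun h =>
    ((Ideal.IsPrime.mem_or_mem inferInstance h).elim huPP he)
  obtain ⟨t, ht, h⟩ := exists_notMem_torsion (FixedPoints.addSubgroup GQ J) hfg PP r hrPP
    ((u : TT) * e) he' (fun P hP σ => by rw [← hcomm, hP σ]) (fun P hP => by
      obtain ⟨Q, hQ, T, hT, hTf, hPQ⟩ := exists_eq_smul_add hr D γ u h0 hlt P hP
      refine ⟨Q, hQ, T, hT, hTf, ?_⟩
      rw [mul_smul, Nat.cast_smul_eq_nsmul, ← hDe, hPQ])
  exact ⟨t, ht, fun P hP => h P hP⟩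

/-- FIN from Mazur's inequality. -/
theorem fin_of_sel [Finite V] (hr : r.Prime) {TT : Type*} [CommRing TT] [Module TT J]
    (hcomm : ∀ (t : TT) (σ : GQ) (x : J), t • σ • x = σ • t • x)
    (PP : Ideal TT) [PP.IsPrime] (hrPP : (r : TT) ∈ PP)
    (hfg : AddGroup.FG (FixedPoints.addSubgroup GQ J))
    (e : TT) (he : e ∉ PP) (D : KumDat r k J V) (hDe : ∀ x : J, D.e x = e • x)
    (γ u : ℕ) (hu : ¬ r ∣ u)
    {P : Places} {N : ℕ} (S : SelDat P r N V) (s : ℕ)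
    (F : ℕ → AddSubgroup V) (hF0 : F 0 = ⊥) (hFs : F s = ⊤) (hst : ∀ i, GStable (F i))
    (hstep : ∀ i < s, IsStep r (F i) (F (i + 1)))
    (hloc : ∀ c ∈ KK D (r ^ γ * u), ∃ m : V, (c, m) ∈ Z1 S ⊤)
    (hnum : Nat.card (H0 S ⊤) * S.Vf.index * r ^ γ < r ^ k * S.Vm.index) :
    ∃ t : TT, t ∉ PP ∧ ∀ P : J, (∀ σ : GQ, σ • P = P) → IsOfFinAddOrder (t • P) := by
  obtain ⟨h0, h1⟩ := card_image_le hr S s F hF0 hFs hst hstep (KK D (r ^ γ * u)) hloc
  refine fin_of_relIndex hr hcomm PP hrPP hfg e he D hDe γ u hu h0 ?_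
  have h2 : (Bd V).relIndex (KK D (r ^ γ * u)) * r ^ γ * S.Vm.index < r ^ k * S.Vm.index :=
    calc (Bd V).relIndex (KK D (r ^ γ * u)) * r ^ γ * S.Vm.index
        = (Bd V).relIndex (KK D (r ^ γ * u)) * S.Vm.index * r ^ γ := by ring
      _ ≤ Nat.card (H0 S ⊤) * S.Vf.index * r ^ γ := Nat.mul_le_mul_right _ h1
      _ < r ^ k * S.Vm.index := hnum
  exact lt_of_mul_lt_mul_right h2 (Nat.zero_le _)

end Fermat.Agent.S15.Fin
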